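import Fermat.Agent.TW.Euler.Base.Arith.Assembly

/-!
# GW-Euler, base case: `ArithNodesOut` from its nodes, with (KUM-b) only for cyclic `D`

`KumEigCycOut` is `KumEigOut` restricted to cyclic `D` of order prime to `p` (the only case used by
`ArithNodesOut`); `arithNodesOut_of_nodes_cyc` is helper17's `arithNodesOut_of_nodes` with this
weaker hypothesis.
-/

set_option autoImplicit false

open CategoryTheory Module ExtCitation TensorProduct
open Fermat.Agent.CFT Fermat.Agent.S55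

namespace Fermat.Agent.TW.Euler

local notation "Qb" => AlgebraicClosure ℚ
local notation "GQ" => (AlgebraicClosure ℚ ≃ₐ[ℚ] AlgebraicClosure ℚ)

/-- **(KUM-b)** for cyclic `D` of order prime to `p`. -/
def KumEigCycOut : Prop :=
  ∀ (p : ℕ) [Fact p.Prime], p ≠ 2 → ∀ (T : Finset Nat.Primes), pPrime p ∈ T →
    ∀ (N : Subgroup GQ) [N.Normal] (_hN : (globalLevel T).IsLevel N)
      (hζ : ∀ g ∈ N, ∀ ζ : Qb, ζ ^ p = 1 → g ζ = ζ), CT p T N →
    ∀ (D : Subgroup (GQ ⧸ N)), IsCyclic D → ¬ p ∣ Nat.card D →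
    ∀ (k' : Type) [Field k'] [Finite k'] [Algebra (ZMod p) k'] (ψ : D →* k'ˣ),
      finrank (ZMod p) (homD (p := p) T N D ψ) =
        finrank (ZMod p) k' * finrank k' (unitEig T N D (dualChar N hζ D ψ))

theorem kumEigCycOut_of_kumEigOut (h : KumEigOut) : KumEigCycOut :=
  fun p _ hp2 T hpT N _ hN hζ hCT D _ _ k' _ _ _ ψ => h p hp2 T hpT N hN hζ hCT D k' ψ

/-- **`ArithNodesOut` from its nodes**, (KUM-b) only for cyclic `D`. -/
theorem arithNodesOut_of_nodes_cyc (hex : CTExistsOut) (hsh : ShInfOut) (hmsha : MackeyShaOut)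
    (hkum : KumEigCycOut) (hksha : KumShaOut) (hunit : UnitEigOut) (hmack : MackeyInvOut) :
    ArithNodesOut := by
  classical
  refine ⟨CT, fun p _ T N hN => hex p T N hN, ?_⟩
  intro p _ hp2 T hpT N _ hN hζ hCT D hD hpD k' _ _ _ ψ
  set θ := dualChar N hζ D ψ with hθ
  refine ⟨?_, ?_⟩
  · -- (H1-ID)
    have h1 := hsh p hp2 T hpT N hN D hpD k' ψ
    have h2 := hkum p hp2 T hpT N hN hζ hCT D hD hpD k' ψ
    have h3 := hunit p hp2 T hpT N hN hζ D hD hpD k' θ
    obtain ⟨hψ0, -, -⟩ := hmack p hp2 T hpT N hN D k' ψ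
    obtain ⟨hθ0, hθℓ, hθinf⟩ := hmack p hp2 T hpT N hN D k' θ
    rw [h1, h2, hψ0, hθ0, hθinf, Finset.sum_congr rfl (fun ℓ _ => hθℓ ℓ), ← Finset.mul_sum]
    have hiff : (θ = omegaD N hζ D k') ↔ ψ = 1 := dualChar_eq_omegaD_iff N hζ D ψ
    set d := finrank (ZMod p) k'
    set e := finrank k' (unitEig T N D θ)
    set s := ∑ ℓ ∈ T, orbCount D (locBar N ℓ) θ
    set o := orbCount D (infBar N) θ
    have h3' : e + (if θ = 1 then 1 else 0) = (if ψ = 1 then 1 else 0) + s + o := by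
      rw [h3]
      congr 2
      exact if_congr hiff rfl rfl
    have key : d * e + d * (if θ = 1 then 1 else 0) =
        d * (if ψ = 1 then 1 else 0) + d * s + d * o := by
      rw [← mul_add, h3', mul_add, mul_add]
    have e1 : (if θ = 1 then d else 0) = d * (if θ = 1 then 1 else 0) := by
      split_ifs <;> simp
    have e2 : (if ψ = 1 then d else 0) = d * (if ψ = 1 then 1 else 0) := by
      split_ifs <;> simp
    rw [e1, e2]
    exact key
  · -- (SHA-VAN)
    refine hmsha p hp2 T hpT N hN D hpD k' θ fun χ hχ hvan => ?_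
    exact hksha p hp2 T hpT N hN hζ hCT k' χ hχ.1 hχ.2.1 hvan

end Fermat.Agent.TW.Euler
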