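/-
S56 / GW-Euler, base case, arithmetic nodes (integrator: helper17).
Shared vocabulary for the proof of `ArithNodesOut` (`Base/Contracts.lean`):

* `homD T N D φ`      : the `D`-equivariant LC homomorphisms `χ : N → k'`,
                        `χ (g n g⁻¹) = φ(ḡ) · χ n` for `ḡ ∈ D ≤ Ḡ = GQ ⧸ N`;
* `LocVanish T N χ`   : `χ` vanishes on `N ∩ g · range (primeLocalToGlobal ℓ) · g⁻¹`, `ℓ ∈ T`;
* `locBar N ℓ`, `infBar N` : the images in `Ḡ` of the decomposition group at `ℓ` / of `⟨c⟩`;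
* `orbCount D Z θ`    : the number of `D`-orbits on `G ⧸ Z` on whose stabilisers `θ` is trivial
                        (`= #{D g Z : θ = 1 on D ∩ g Z g⁻¹}`); `orbNum H Z` : the number of orbits;
* `unitAct T N g`     : the action of `g ∈ GQ` on the `T`-units of `K_N` (`Kummer.tUnits T N`);
* `unitEig T N D θ`   : the `θ`-eigenspace of `D` on `k' ⊗_ℤ O_{K_N,T}^×`;
* `omegaD N hζ D`     : the mod `p` cyclotomic character of `D` with values in `k'ˣ`;
* `CT p T N`          : "`Cl_T(K_N) = 0`" (`IdeleDict.GeneratesClassGroup` for the fixed field).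
-/
import Fermat.Agent.TW.Euler.Base.Contracts
import Fermat.Agent.TW.Euler.Kummer.KummerMap
import Fermat.Agent.CFT.Global.IdeleDict.DictGen

set_option autoImplicit false
set_option linter.unusedSectionVars false

open CategoryTheory Module ExtCitation TensorProduct
open Fermat.Agent.CFT Fermat.Agent.S55

namespace Fermat.Agent.TW.Euler

local notation "Qb" => AlgebraicClosure ℚ
local notation "GQ" => (AlgebraicClosure ℚ ≃ₐ[ℚ] AlgebraicClosure ℚ)

section Defs

variable {p : ℕ} [Fact p.Prime]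

/-- The `D`-equivariant LC homomorphisms `N → k'`: `χ (g n g⁻¹) = φ(ḡ) · χ n` for `ḡ ∈ D`. -/
def homD (T : Finset Nat.Primes) (N : Subgroup GQ) [hN : N.Normal] (D : Subgroup (GQ ⧸ N))
    {k' : Type} [Field k'] [Algebra (ZMod p) k'] (φ : D →* k'ˣ) :
    Submodule (ZMod p) (↥N → k') where
  carrier := {χ | (∀ a b : N, χ (a * b) = χ a + χ b) ∧ (Kummer.levU T N).IsLC₁ χ ∧
    ∀ (g : GQ) (hg : (QuotientGroup.mk g : GQ ⧸ N) ∈ D) (n : N),
      χ ⟨g * n * g⁻¹, hN.conj_mem n n.2 g⟩ = ((φ ⟨_, hg⟩ : k'ˣ) : k') * χ n}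
  zero_mem' := by
    refine ⟨fun a b => by simp, ?_, fun g hg n => by simp⟩
    obtain ⟨V, hV⟩ := (Kummer.levU T N).exists_level
    exact ⟨V, hV, fun g s _ => rfl⟩
  add_mem' := by
    rintro χ χ' ⟨h1, ⟨V, hV, h2⟩, h3⟩ ⟨h1', ⟨V', hV', h2'⟩, h3'⟩
    refine ⟨fun a b => ?_, ?_, fun g hg n => ?_⟩
    · simp only [Pi.add_apply, h1 a b, h1' a b]; abel
    · obtain ⟨V'', hV'', hle⟩ := (Kummer.levU T N).directed hV hV'
      refine ⟨V'', hV'', fun g s hs => ?_⟩
      simp only [Pi.add_apply, h2 g s (hle hs).1, h2' g s (hle hs).2]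
    · simp only [Pi.add_apply, h3 g hg n, h3' g hg n, mul_add]
  smul_mem' := by
    rintro c χ ⟨h1, ⟨V, hV, h2⟩, h3⟩
    refine ⟨fun a b => ?_, ⟨V, hV, fun g s hs => ?_⟩, fun g hg n => ?_⟩
    · simp only [Pi.smul_apply, h1 a b, smul_add]
    · simp only [Pi.smul_apply, h2 g s hs]
    · simp only [Pi.smul_apply, h3 g hg n, mul_smul_comm]

/-- `χ` vanishes on `N ∩ g · range (primeLocalToGlobal ℓ) · g⁻¹` for all `g`, `ℓ ∈ T`. -/
def LocVanish (T : Finset Nat.Primes) (N : Subgroup GQ) {X : Type*} [Zero X] (χ : ↥N → X) : Prop :=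
  ∀ ℓ ∈ T, ∀ (g : GQ) (γ : primeLocalGaloisGroup ℓ)
    (h : g * primeLocalToGlobal ℓ γ * g⁻¹ ∈ N), χ ⟨_, h⟩ = 0

/-- The image in `Ḡ = GQ ⧸ N` of the decomposition group at `ℓ`. -/
noncomputable def locBar (N : Subgroup GQ) [N.Normal] (ℓ : Nat.Primes) : Subgroup (GQ ⧸ N) :=
  (primeLocalToGlobal ℓ).range.map (QuotientGroup.mk' N)

/-- The image in `Ḡ = GQ ⧸ N` of `⟨c⟩`, `c` the complex conjugation. -/
noncomputable def infBar (N : Subgroup GQ) [N.Normal] : Subgroup (GQ ⧸ N) :=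
  (Subgroup.zpowers complexConjugation).map (QuotientGroup.mk' N)

/-- The number of `H`-orbits on `G ⧸ Z` (`= #(H \ G / Z)`). -/
noncomputable def orbNum {G : Type} [Group G] (H Z : Subgroup G) : ℕ :=
  Nat.card (MulAction.orbitRel.Quotient H (G ⧸ Z))

/-- The number of `D`-orbits on `G ⧸ Z` on whose stabilisers `θ` is trivial
(`= #{D g Z : θ = 1 on D ∩ g Z g⁻¹}`). -/
noncomputable def orbCount {G : Type} [Group G] (D Z : Subgroup G) {k' : Type} [Monoid k']
    (θ : D →* k') : ℕ :=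
  Nat.card {O : MulAction.orbitRel.Quotient D (G ⧸ Z) //
    ∀ x : G ⧸ Z, (Quotient.mk'' x : MulAction.orbitRel.Quotient D (G ⧸ Z)) = O →
      ∀ t : D, t • x = x → θ t = 1}

variable (T : Finset Nat.Primes) (N : Subgroup GQ) [N.Normal]

/-- The action of `g ∈ GQ` on the `T`-units of the fixed field of the normal subgroup `N`. -/
noncomputable def unitAct (g : GQ) :
    Additive ↥(Kummer.tUnits T N) →+ Additive ↥(Kummer.tUnits T N) :=
  MonoidHom.toAdditive
    { toFun := fun u => ⟨Units.map (g : Qb →* Qb) (u : Qbˣ), Kummer.map_mem_tUnits g u.2⟩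
      map_one' := Subtype.ext (map_one _)
      map_mul' := fun _ _ => Subtype.ext (map_mul _ _ _) }

variable {T N} in
@[simp] lemma unitAct_apply (g : GQ) (u : Additive ↥(Kummer.tUnits T N)) :
    (((Additive.toMul (unitAct T N g u) : ↥(Kummer.tUnits T N)) : Qbˣ) : Qb) =
      g (((Additive.toMul u : ↥(Kummer.tUnits T N)) : Qbˣ) : Qb) := rfl

/-- The `θ`-eigenspace of `D ≤ Ḡ` on `k' ⊗_ℤ O_{K_N,T}^×`. -/
noncomputable def unitEig (D : Subgroup (GQ ⧸ N)) {k' : Type} [Field k'] (θ : D →* k'ˣ) :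
    Submodule k' (k' ⊗[ℤ] Additive ↥(Kummer.tUnits T N)) where
  carrier := {a | ∀ (g : GQ) (hg : (QuotientGroup.mk g : GQ ⧸ N) ∈ D),
    (unitAct T N g).toIntLinearMap.baseChange k' a = ((θ ⟨_, hg⟩ : k'ˣ) : k') • a}
  zero_mem' := fun g hg => by simp
  add_mem' := by
    intro a b ha hb g hg
    rw [map_add, ha g hg, hb g hg, smul_add]
  smul_mem' := by
    intro c a ha g hg
    rw [map_smul, ha g hg, smul_comm]

/-- The mod `p` cyclotomic character of `D ≤ Ḡ` with values in `k'ˣ`. -/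
noncomputable def omegaD (hζ : ∀ g ∈ N, ∀ ζ : Qb, ζ ^ p = 1 → g ζ = ζ) (D : Subgroup (GQ ⧸ N))
    (k' : Type) [Field k'] [Algebra (ZMod p) k'] : D →* k'ˣ :=
  (Units.map (algebraMap (ZMod p) k' : ZMod p →* k')).comp ((omegaBar N hζ).comp D.subtype)

lemma dualChar_eq (hζ : ∀ g ∈ N, ∀ ζ : Qb, ζ ^ p = 1 → g ζ = ζ) (D : Subgroup (GQ ⧸ N))
    {k' : Type} [Field k'] [Algebra (ZMod p) k'] (ψ : D →* k'ˣ) :
    dualChar N hζ D ψ = ψ⁻¹ * omegaD N hζ D k' := rfl

end Defs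

/-- "`Cl_T(K_N) = 0`": the primes over `T` generate the class group of the fixed field of `N`. -/
def CT (_p : ℕ) (T : Finset Nat.Primes) (N : Subgroup GQ) : Prop :=
  ∃ (F : IntermediateField ℚ Qb) (_ : NumberField ↥F), F.fixingSubgroup = N ∧
    IdeleDict.GeneratesClassGroup ↥F (IdeleDict.primesOver ↥F (↑T : Set Nat.Primes))

end Fermat.Agent.TW.Euler
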