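/-
S56 / GW-Euler, base case, node (K4) = `KumEigOut` (owner helper17): the Kummer map with values in
`K4.WChar p T N` (additive LC functions `N → 𝔽_p`, helper1's `K4/WDefs.lean`), in the shape
consumed by (K4-UNIT): surjective under `HCl`, kernel `= p • _`, and
`κ ∘ unitAct t = (c • pullW (conjR t⁻¹)) ∘ κ`.
-/
import Fermat.Agent.TW.Euler.Base.Arith.Defs
import Fermat.Agent.TW.Euler.Base.K4.WDefs
import Fermat.Agent.TW.Euler.Base.K4.Lin

set_option autoImplicit false
set_option linter.unusedSectionVars false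

open groupCohomology
open Fermat.Agent.CFT Fermat.Agent.CFT.LCSym Fermat.Agent.S55

namespace Fermat.Agent.TW.Euler

open Kummer K4

local notation "Qb" => AlgebraicClosure ℚ
local notation "GQ" => (AlgebraicClosure ℚ ≃ₐ[ℚ] AlgebraicClosure ℚ)

variable {p : ℕ} {T : Finset Nat.Primes} {N : Subgroup GQ}

/-- `XChar (levU T N) p ≃ WChar p T N`: an LC `1`-cocycle with trivial coefficients is an
additive LC function. -/
noncomputable def xcharEquiv (p : ℕ) (T : Finset Nat.Primes) (N : Subgroup GQ) :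
    XChar (levU T N) p ≃ₗ[ZMod p] ↥(WChar p T N) where
  toFun f := ⟨(f : ↥N → ZMod p), XChar.map_mul f, f.2.2⟩
  invFun f := ⟨(f : ↥N → ZMod p), by
    refine (mem_cocycles₁_iff (A := FpRep ↥N p) _).2 fun g h => ?_
    show (f : ↥N → ZMod p) (g * h) = _ + (f : ↥N → ZMod p) g
    rw [f.2.1 g h, add_comm]
    rfl, f.2.2⟩
  map_add' _ _ := rfl
  map_smul' _ _ := rfl
  left_inv _ := rfl
  right_inv _ := rfl

@[simp] theorem xcharEquiv_apply (f : XChar (levU T N) p) (n : N) :
    (xcharEquiv p T N f : ↥N → ZMod p) n = (f : ↥N → ZMod p) n := rfl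

section Kum

variable [NeZero p] (hp : p.Prime) (hpT : ∀ q : Nat.Primes, q ∉ T → (q : ℕ) ≠ p)
  {ζ : Qb} (hζ : IsPrimitiveRoot ζ p) (hζN : ∀ σ ∈ N, σ ζ = ζ)

/-- The Kummer map `O_{K_N,T}^× → {additive LC functions N → 𝔽_p}`. -/
noncomputable def kumSub : Additive ↥(tUnits T N) →+ ↥(WChar p T N) :=
  (xcharEquiv p T N).toLinearMap.toAddMonoidHom.comp (kummerHom hp hpT hζ hζN)

theorem kumSub_apply (x : Additive ↥(tUnits T N)) (n : N) :
    (kumSub hp hpT hζ hζN x : ↥N → ZMod p) n =
      (kummerChar hp hpT hζ hζN (Additive.toMul x) : ↥N → ZMod p) n := rfl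

theorem kumSub_surjective (hN : (globalLevel T).IsOpen N) (hcl : HCl p T N) :
    Function.Surjective (kumSub hp hpT hζ hζN) := by
  intro f
  obtain ⟨u, hu⟩ := kummerChar_surjective hp hpT hN hζ hζN hcl ((xcharEquiv p T N).symm f)
  refine ⟨Additive.ofMul u, ?_⟩
  apply (xcharEquiv p T N).symm.injective
  rw [← hu]
  exact (xcharEquiv p T N).symm_apply_apply _

theorem kumSub_eq_zero_iff (x : Additive ↥(tUnits T N)) :
    kumSub hp hpT hζ hζN x = 0 ↔ ∃ y : Additive ↥(tUnits T N), x = p • y := by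
  have h1 : kumSub hp hpT hζ hζN x = 0 ↔
      kummerChar hp hpT hζ hζN (Additive.toMul x) = 0 := by
    constructor
    · intro h
      have := congrArg (xcharEquiv p T N).symm h
      rw [map_zero] at this
      rw [← this]
      exact ((xcharEquiv p T N).symm_apply_apply _).symm
    · intro h
      show xcharEquiv p T N (kummerChar hp hpT hζ hζN (Additive.toMul x)) = 0
      rw [h, map_zero]
  rw [h1, kummerChar_eq_zero_iff]
  constructor
  · rintro ⟨v, hv⟩
    exact ⟨Additive.ofMul v, by rw [← ofMul_pow, hv]; rfl⟩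
  · rintro ⟨y, rfl⟩
    exact ⟨Additive.toMul y, rfl⟩

/-- **Equivariance**: `κ (t · u) = c • (κ u ∘ conj_{t⁻¹})` where `t ζ = ζ ^ c`. -/
theorem kumSub_unitAct [Fact p.Prime] [hNn : N.Normal] (t : GQ) {c : ZMod p} (hc : t ζ = ζ ^ c.val)
    (x : Additive ↥(tUnits T N)) :
    kumSub hp hpT hζ hζN (unitAct T N t x) =
      c • K4Lin.pullW (WChar p T N) (conjR N t⁻¹) (conjR_stable p T N t⁻¹)
        (kumSub hp hpT hζ hζN x) := by
  apply Subtype.ext
  funext n
  have h := kummerChar_conj hp hpT hζ hζN t hc (Additive.toMul x) n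
  show (kummerChar hp hpT hζ hζN (Additive.toMul (unitAct T N t x)) : ↥N → ZMod p) n =
    c * (kummerChar hp hpT hζ hζN (Additive.toMul x) : ↥N → ZMod p) (conjR N t⁻¹ n)
  have hconj : conjElt N t n = conjR N t⁻¹ n := by
    apply Subtype.ext
    rw [coe_conjElt, coe_conjR, inv_inv]
  rw [← hconj]
  exact h

end Kum

end Fermat.Agent.TW.Euler
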