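/-
S56 / GW-Euler, base case, arithmetic nodes (integrator: helper17).
Literal contracts of the nodes from which `ArithNodesOut` (`Base/Contracts.lean`) is assembled
(`Arith/Assembly.lean`).  Notation: `Ḡ = GQ ⧸ N`, `D ≤ Ḡ`, `d = [k' : 𝔽_p]`, `X_φ = baseMod N D φ`,
`θ = dualChar N hζ D ψ = ψ⁻¹ · ω̄`.

* `ShInfOut`     (SH-INF)   : `h¹(X_φ) = dim_{𝔽_p} homD T N D φ`            (Shapiro + inf-res);
* `MackeyShaOut` (MACKEY-Ш) : if no nonzero `χ ∈ homD T N D φ` vanishes locally then `Ш¹_T(X_φ) = 0`;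
* `KumEigOut`    (KUM-b)    : under `CT`: `dim_{𝔽_p} homD T N D ψ = d · dim_{k'} unitEig T N D θ`;
* `KumShaOut`    (KUM-Ш)    : under `CT`: an LC homomorphism `N → k'` vanishing locally is `0`;
* `UnitEigOut`   (4d)       : `dim_{k'} unitEig θ + [θ = 1] = [θ = ω̄] + Σ_{ℓ ∈ T} orbCount_ℓ θ
                              + orbCount_∞ θ` (equivariant `T`-unit theorem mod `p`);
* `RankOut`      (RANK)     : finite generation and rank of the `T`-units of the fixed field of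
                              `H̃ ⊇ N` in terms of orbit numbers (Dirichlet + places);
* `MackeyInvOut` (MACKEY-0) : `h⁰(X_φ) = d [φ = 1]`, `h⁰_ℓ(X_φ) = d · orbCount_ℓ φ`,
                              `hInf X_φ = d · orbCount_∞ φ`.
-/
import Fermat.Agent.TW.Euler.Base.Arith.Defs

set_option autoImplicit false

open CategoryTheory Module ExtCitation TensorProduct
open Fermat.Agent.CFT Fermat.Agent.S55

namespace Fermat.Agent.TW.Euler

local notation "Qb" => AlgebraicClosure ℚ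
local notation "GQ" => (AlgebraicClosure ℚ ≃ₐ[ℚ] AlgebraicClosure ℚ)

/-- **(SH-INF)** `h¹(G_T, X_φ) = dim_{𝔽_p} {χ : N → k' LC hom, χ(g n g⁻¹) = φ(ḡ) χ(n), ḡ ∈ D}`. -/
def ShInfOut : Prop :=
  ∀ (p : ℕ) [Fact p.Prime], p ≠ 2 → ∀ (T : Finset Nat.Primes), pPrime p ∈ T →
    ∀ (N : Subgroup GQ) [N.Normal] (hN : (globalLevel T).IsLevel N)
      (D : Subgroup (GQ ⧸ N)), ¬ p ∣ Nat.card D →
    ∀ (k' : Type) [Field k'] [Finite k'] [Algebra (ZMod p) k'] (φ : D →* k'ˣ),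
      hG (isSmooth_baseMod (p := p) N D hN φ) 1 = finrank (ZMod p) (homD (p := p) T N D φ)

/-- **(MACKEY-Ш)** if no nonzero `χ ∈ homD T N D φ` vanishes on all `N ∩ g G_ℓ g⁻¹` (`ℓ ∈ T`),
then `Ш¹_T(X_φ) = 0`. -/
def MackeyShaOut : Prop :=
  ∀ (p : ℕ) [Fact p.Prime], p ≠ 2 → ∀ (T : Finset Nat.Primes), pPrime p ∈ T →
    ∀ (N : Subgroup GQ) [N.Normal] (_hN : (globalLevel T).IsLevel N)
      (D : Subgroup (GQ ⧸ N)), ¬ p ∣ Nat.card D →
    ∀ (k' : Type) [Field k'] [Finite k'] [Algebra (ZMod p) k'] (φ : D →* k'ˣ),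
      (∀ χ ∈ homD (p := p) T N D φ, LocVanish T N χ → χ = 0) →
      finrank (ZMod p) (shaLC₁ T (baseMod (p := p) N D φ)) = 0

/-- **(KUM-b)** the Kummer isomorphism `W ≅ A(-1)`, `A = O_{K_N,T}^× / p`, on `D`-eigenspaces. -/
def KumEigOut : Prop :=
  ∀ (p : ℕ) [Fact p.Prime], p ≠ 2 → ∀ (T : Finset Nat.Primes), pPrime p ∈ T →
    ∀ (N : Subgroup GQ) [N.Normal] (_hN : (globalLevel T).IsLevel N)
      (hζ : ∀ g ∈ N, ∀ ζ : Qb, ζ ^ p = 1 → g ζ = ζ), CT p T N →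
    ∀ (D : Subgroup (GQ ⧸ N)) (k' : Type) [Field k'] [Finite k'] [Algebra (ZMod p) k']
      (ψ : D →* k'ˣ),
      finrank (ZMod p) (homD (p := p) T N D ψ) =
        finrank (ZMod p) k' * finrank k' (unitEig T N D (dualChar N hζ D ψ))

/-- **(KUM-Ш)** under `CT`, an LC homomorphism `N → k'` vanishing on all `N ∩ g G_ℓ g⁻¹`
(`ℓ ∈ T`) is zero. -/
def KumShaOut : Prop :=
  ∀ (p : ℕ) [Fact p.Prime], p ≠ 2 → ∀ (T : Finset Nat.Primes), pPrime p ∈ T →
    ∀ (N : Subgroup GQ) [N.Normal] (_hN : (globalLevel T).IsLevel N)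
      (_hζ : ∀ g ∈ N, ∀ ζ : Qb, ζ ^ p = 1 → g ζ = ζ), CT p T N →
    ∀ (k' : Type) [Field k'] [Finite k'] [Algebra (ZMod p) k'] (χ : ↥N → k'),
      (∀ a b : N, χ (a * b) = χ a + χ b) → (Kummer.levU T N).IsLC₁ χ → LocVanish T N χ → χ = 0

open Classical in
/-- **(4d)** the equivariant `T`-unit theorem mod `p`: the multiplicity of `θ` in
`k' ⊗ O_{K_N,T}^×` as a `D`-module, `D` cyclic of order prime to `p`. -/
def UnitEigOut : Prop :=
  ∀ (p : ℕ) [Fact p.Prime], p ≠ 2 → ∀ (T : Finset Nat.Primes), pPrime p ∈ T →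
    ∀ (N : Subgroup GQ) [N.Normal] (_hN : (globalLevel T).IsLevel N)
      (hζ : ∀ g ∈ N, ∀ ζ : Qb, ζ ^ p = 1 → g ζ = ζ)
      (D : Subgroup (GQ ⧸ N)), IsCyclic D → ¬ p ∣ Nat.card D →
    ∀ (k' : Type) [Field k'] [Finite k'] [Algebra (ZMod p) k'] (θ : D →* k'ˣ),
      finrank k' (unitEig T N D θ) + (if θ = 1 then 1 else 0) =
        (if θ = omegaD N hζ D k' then 1 else 0) + ∑ ℓ ∈ T, orbCount D (locBar N ℓ) θ +
          orbCount D (infBar N) θ

/-- **(RANK)** Dirichlet's `T`-unit theorem for the fixed fields of the subgroups `H̃ ⊇ N`: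
finite generation, and `rank + 1 = #{places over T ∪ {∞}}`, the places over `v` of the fixed field
of `H̃ = H.comap mk` being the `H`-orbits on `Ḡ ⧸ Z̄_v`. -/
def RankOut : Prop :=
  ∀ (T : Finset Nat.Primes) (N : Subgroup GQ) [N.Normal] (_hN : (globalLevel T).IsLevel N)
    (H : Subgroup (GQ ⧸ N)),
    Module.Finite ℤ (Additive ↥(Kummer.tUnits T (H.comap (QuotientGroup.mk' N)))) ∧
    finrank ℤ (Additive ↥(Kummer.tUnits T (H.comap (QuotientGroup.mk' N)))) + 1 =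
      ∑ ℓ ∈ T, orbNum H (locBar N ℓ) + orbNum H (infBar N)

open Classical in
/-- **(MACKEY-0)** invariants of `Coind_D^Ḡ k'(φ)` under `Ḡ`, a decomposition group, `⟨c̄⟩`. -/
def MackeyInvOut : Prop :=
  ∀ (p : ℕ) [Fact p.Prime], p ≠ 2 → ∀ (T : Finset Nat.Primes), pPrime p ∈ T →
    ∀ (N : Subgroup GQ) [N.Normal] (hN : (globalLevel T).IsLevel N)
      (D : Subgroup (GQ ⧸ N))
      (k' : Type) [Field k'] [Finite k'] [Algebra (ZMod p) k'] (φ : D →* k'ˣ),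
      hG (isSmooth_baseMod (p := p) N D hN φ) 0 = (if φ = 1 then finrank (ZMod p) k' else 0) ∧
      (∀ ℓ : Nat.Primes, h0Loc ℓ (baseMod (p := p) N D φ) =
        finrank (ZMod p) k' * orbCount D (locBar N ℓ) φ) ∧
      hInf (baseMod (p := p) N D φ) = finrank (ZMod p) k' * orbCount D (infBar N) φ

end Fermat.Agent.TW.Euler
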