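/-
S56 / GW-Euler, base case, arithmetic nodes (integrator: helper17).
Assembly of `ArithNodesOut` (`Base/Contracts.lean`) from the node contracts of `Arith/Contracts.lean`.
-/
import Fermat.Agent.TW.Euler.Base.Arith.Contracts

set_option autoImplicit false

open CategoryTheory Module ExtCitation TensorProduct
open Fermat.Agent.CFT Fermat.Agent.S55

namespace Fermat.Agent.TW.Euler

local notation "Qb" => AlgebraicClosure ℚ
local notation "GQ" => (AlgebraicClosure ℚ ≃ₐ[ℚ] AlgebraicClosure ℚ)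

/-- The class-group condition can be achieved by enlarging `T`. -/
def CTExistsOut : Prop :=
  ∀ (p : ℕ) [Fact p.Prime] (T : Finset Nat.Primes) (N : Subgroup GQ),
    (globalLevel T).IsLevel N → ∃ T' : Finset Nat.Primes, T ⊆ T' ∧ CT p T' N

lemma dualChar_eq_omegaD_iff {p : ℕ} [Fact p.Prime] (N : Subgroup GQ) [N.Normal]
    (hζ : ∀ g ∈ N, ∀ ζ : Qb, ζ ^ p = 1 → g ζ = ζ) (D : Subgroup (GQ ⧸ N))
    {k' : Type} [Field k'] [Algebra (ZMod p) k'] (ψ : D →* k'ˣ) :
    dualChar N hζ D ψ = omegaD N hζ D k' ↔ ψ = 1 := by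
  rw [dualChar_eq]
  constructor
  · intro h
    ext t
    have h1 := DFunLike.congr_fun h t
    rw [MonoidHom.mul_apply, MonoidHom.inv_apply] at h1
    have h2 : (ψ t)⁻¹ = 1 := mul_eq_right.mp h1
    rw [inv_eq_one.mp h2, MonoidHom.one_apply]
  · rintro rfl
    ext t
    rw [MonoidHom.mul_apply, MonoidHom.inv_apply, MonoidHom.one_apply, inv_one, one_mul]

/-- **`ArithNodesOut` from its nodes.** -/
theorem arithNodesOut_of_nodes (hex : CTExistsOut) (hsh : ShInfOut) (hmsha : MackeyShaOut)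
    (hkum : KumEigOut) (hksha : KumShaOut) (hunit : UnitEigOut) (hmack : MackeyInvOut) :
    ArithNodesOut := by
  classical
  refine ⟨CT, fun p _ T N hN => hex p T N hN, ?_⟩
  intro p _ hp2 T hpT N _ hN hζ hCT D hD hpD k' _ _ _ ψ
  set θ := dualChar N hζ D ψ with hθ
  refine ⟨?_, ?_⟩
  · -- (H1-ID)
    have h1 := hsh p hp2 T hpT N hN D hpD k' ψ
    have h2 := hkum p hp2 T hpT N hN hζ hCT D k' ψ
    have h3 := hunit p hp2 T hpT N hN hζ D hD hpD k' θ
    obtain ⟨hψ0, -, -⟩ := hmack p hp2 T hpT N hN D k' ψ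
    obtain ⟨hθ0, hθℓ, hθinf⟩ := hmack p hp2 T hpT N hN D k' θ
    rw [h1, h2, hψ0, hθ0, hθinf, Finset.sum_congr rfl (fun ℓ _ => hθℓ ℓ), ← Finset.mul_sum]
    have hiff : (θ = omegaD N hζ D k') ↔ ψ = 1 := dualChar_eq_omegaD_iff N hζ D ψ
    set d := finrank (ZMod p) k'
    set e := finrank k' (unitEig T N D θ)
    set s := ∑ ℓ ∈ T, orbCount D (locBar N ℓ) θ
    set o := orbCount D (infBar N) θ
    have h3' : e + (if θ = 1 then 1 else 0) = (if ψ = 1 then 1 else 0) + s + o := by
      rw [h3]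
      congr 2
      exact if_congr hiff rfl rfl
    have key : d * e + d * (if θ = 1 then 1 else 0) =
        d * (if ψ = 1 then 1 else 0) + d * s + d * o := by
      rw [← mul_add, h3', mul_add, mul_add]
    have e1 : (if θ = 1 then d else 0) = d * (if θ = 1 then 1 else 0) := by
      split_ifs <;> simp
    have e2 : (if ψ = 1 then d else 0) = d * (if ψ = 1 then 1 else 0) := by
      split_ifs <;> simp
    rw [e1, e2]
    exact key
  · -- (SHA-VAN)
    refine hmsha p hp2 T hpT N hN D hpD k' θ fun χ hχ hvan => ?_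
    exact hksha p hp2 T hpT N hN hζ hCT k' χ hχ.1 hχ.2.1 hvan

end Fermat.Agent.TW.Euler
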