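/-
S56 / GW-Euler, base case, node (K4): `kumEigCycOut : KumEigCycOut` (owner helper17; `KumEigCycOut` =
helper8's `Arith/AssemblyCyc.lean`: (KUM-b) for cyclic `D`).

chain (`D = ⟨σ̄⟩`, `σ` a lift, `W = K4.WChar p T N`, `E = pullW W (conjR N σ)`, `c = ω̄(σ)`):
`dim_{𝔽_p} homD ψ = d · dim_{k'} eigenspace (E ⊗ k') (ψ σ̄)`                  [helper1 (KE-1) on helper6 (K4-LIN)]
`dim_{k'} unitEig θ = dim_{k'} eigenspace (unitAct σ ⊗ k') (θ σ̄)`             [helper15 (U1)]
`  = dim_{k'} eigenspace ((c • E⁻¹) ⊗ k') (θ σ̄)`                             [helper29 (K4-UNIT) on `kumSub`]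
`  = dim_{k'} eigenspace (E ⊗ k') (c / θ σ̄)`, and `c / θ σ̄ = ψ σ̄`.            [helper29 twist lemmas]
-/
import Fermat.Agent.TW.Euler.Base.Arith.KumSub
import Fermat.Agent.TW.Euler.Base.K4.HomD
import Fermat.Agent.TW.Euler.Kummer.K4Unit
import Fermat.Agent.TW.Euler.Base.UnitEigGen
import Fermat.Agent.TW.Euler.Base.ArithKum
import Fermat.Agent.TW.Euler.Base.Arith.AssemblyCyc

set_option autoImplicit false
set_option linter.unusedSectionVars false

open CategoryTheory Module ExtCitation TensorProduct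
open Fermat.Agent.CFT Fermat.Agent.S55

namespace Fermat.Agent.TW.Euler

open Kummer K4

local notation "Qb" => AlgebraicClosure ℚ
local notation "GQ" => (AlgebraicClosure ℚ ≃ₐ[ℚ] AlgebraicClosure ℚ)

section Inverse

variable {p : ℕ} [Fact p.Prime] (T : Finset Nat.Primes) (N : Subgroup GQ) [N.Normal]

/-- `pullW (conjR σ) ∘ pullW (conjR σ⁻¹) = 1` on `WChar p T N`. -/
theorem pullW_conjR_mul_inv (σ : GQ) :
    K4Lin.pullW (WChar p T N) (conjR N σ) (conjR_stable p T N σ) *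
      K4Lin.pullW (WChar p T N) (conjR N σ⁻¹) (conjR_stable p T N σ⁻¹) = 1 := by
  apply LinearMap.ext
  intro f
  apply Subtype.ext
  funext n
  show (f : ↥N → ZMod p) (conjR N σ⁻¹ (conjR N σ n)) = (f : ↥N → ZMod p) n
  have hn : conjR N σ⁻¹ (conjR N σ n) = n := by
    apply Subtype.ext
    simp only [coe_conjR]
    group
  rw [hn]

theorem pullW_conjR_inv_mul (σ : GQ) :
    K4Lin.pullW (WChar p T N) (conjR N σ⁻¹) (conjR_stable p T N σ⁻¹) *
      K4Lin.pullW (WChar p T N) (conjR N σ) (conjR_stable p T N σ) = 1 := by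
  apply LinearMap.ext
  intro f
  apply Subtype.ext
  funext n
  show (f : ↥N → ZMod p) (conjR N σ (conjR N σ⁻¹ n)) = (f : ↥N → ZMod p) n
  have hn : conjR N σ (conjR N σ⁻¹ n) = n := by
    apply Subtype.ext
    simp only [coe_conjR]
    group
  rw [hn]

end Inverse

/-- Base change of a product of endomorphisms equal to `1`. -/
theorem baseChange_mul_eq_one {k : Type*} [Field k] {V : Type*} [AddCommGroup V] [Module k V]
    (K : Type*) [Field K] [Algebra k K] (E E' : V →ₗ[k] V) (h : E * E' = 1) :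
    (E.baseChange K : Module.End K (K ⊗[k] V)) * E'.baseChange K = 1 := by
  apply LinearMap.ext
  intro z
  induction z with
  | zero => simp
  | add x y hx hy => rw [map_add, map_add, hx, hy]
  | tmul a v =>
    have hv : E (E' v) = v := by
      have := congrArg (fun F : V →ₗ[k] V => F v) h
      simpa using this
    show E.baseChange K (E'.baseChange K (a ⊗ₜ[k] v)) = a ⊗ₜ[k] v
    rw [LinearMap.baseChange_tmul, LinearMap.baseChange_tmul, hv]

/-- **(K4) = `KumEigCycOut`.** -/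
theorem kumEigCycOut : KumEigCycOut := by
  intro p _ hp2 T hpT N _ hN hζ hCT D hD _hpD k' _ _ _ ψ
  have hp : p.Prime := Fact.out
  have : NeZero p := ⟨hp.ne_zero⟩
  have hpT' : ∀ q : Nat.Primes, q ∉ T → (q : ℕ) ≠ p := by
    intro q hq h
    apply hq
    have : q = pPrime p := Subtype.ext h
    rw [this]
    exact hpT
  obtain ⟨ζ, hζp⟩ : ∃ ζ : Qb, IsPrimitiveRoot ζ p :=
    HasEnoughRootsOfUnity.exists_primitiveRoot Qb p
  have hζN : ∀ σ ∈ N, σ ζ = ζ := fun σ hσ => hζ σ hσ ζ hζp.pow_eq_one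
  have hcl : HCl p T N := Base.hcl_of_eulerCT hN hCT
  have hopen : (globalLevel T).IsOpen N := (globalLevel T).isOpen_of_isLevel hN
  -- a generator of `D` and a lift
  obtain ⟨σbar, hgen⟩ := hD.exists_generator
  obtain ⟨σ, hσ⟩ := QuotientGroup.mk_surjective (σbar : GQ ⧸ N)
  have hσD : (QuotientGroup.mk σ : GQ ⧸ N) ∈ D := by rw [hσ]; exact σbar.2
  have hgen' : ∀ d : D, d ∈ Subgroup.zpowers (⟨QuotientGroup.mk σ, hσD⟩ : D) := by
    have : (⟨QuotientGroup.mk σ, hσD⟩ : D) = σbar := Subtype.ext hσ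
    rw [this]
    exact hgen
  rw [K4.finrank_homD_eq T N D ψ σ hσD hgen',
    Base.unitEig_eq_eigenspace T N D σ hσD hgen' (dualChar N hζ D ψ)]
  congr 1
  -- the operators
  set E := K4Lin.pullW (WChar p T N) (conjR N σ) (conjR_stable p T N σ) with hE
  set E' := K4Lin.pullW (WChar p T N) (conjR N σ⁻¹) (conjR_stable p T N σ⁻¹) with hE'
  set c : ZMod p := ((cycloChar p σ : (ZMod p)ˣ) : ZMod p) with hcdef
  have hc : σ ζ = ζ ^ c.val := Fermat.Agent.Res.cycloChar_spec p σ hζp.pow_eq_one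
  have hc0 : c ≠ 0 := (cycloChar p σ).ne_zero
  have hS : ∀ x, kumSub hp hpT' hζp hζN (unitAct T N σ x) =
      (c • E') (kumSub hp hpT' hζp hζN x) := fun x => kumSub_unitAct hp hpT' hζp hζN σ hc x
  have h1 := K4Unit.finrank_eigenspace_eq k' (kumSub hp hpT' hζp hζN)
    (kumSub_surjective hp hpT' hζp hζN hopen hcl) (kumSub_eq_zero_iff hp hpT' hζp hζN)
    (unitAct T N σ) (c • E') hS (((dualChar N hζ D ψ) ⟨_, hσD⟩ : k'ˣ) : k')
  rw [h1, K4Unit.eigenspace_baseChange_smul E' c hc0]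
  -- the eigenvalue
  have hθ : (((dualChar N hζ D ψ) ⟨_, hσD⟩ : k'ˣ) : k') =
      ((ψ ⟨_, hσD⟩ : k'ˣ) : k')⁻¹ * algebraMap (ZMod p) k' c := by
    rw [dualChar_eq, MonoidHom.mul_apply, MonoidHom.inv_apply, Units.val_mul,
      Units.val_inv_eq_inv_val]
    rfl
  have hc0' : algebraMap (ZMod p) k' c ≠ 0 := by
    rw [Ne, map_eq_zero_iff _ (algebraMap (ZMod p) k').injective]
    exact hc0
  have hν : (((dualChar N hζ D ψ) ⟨_, hσD⟩ : k'ˣ) : k') / algebraMap (ZMod p) k' c =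
      ((ψ ⟨_, hσD⟩ : k'ˣ) : k')⁻¹ := by
    rw [hθ, mul_div_assoc, div_self hc0', mul_one]
  rw [hν, K4Unit.eigenspace_inv (E.baseChange k') (E'.baseChange k')
    (baseChange_mul_eq_one k' E E' (pullW_conjR_mul_inv T N σ))
    (baseChange_mul_eq_one k' E' E (pullW_conjR_inv_mul T N σ)) _
    (inv_ne_zero (Units.ne_zero _)), inv_inv]

end Fermat.Agent.TW.Euler
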