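import Mathlib
import Fermat.Agent.TW.Euler.Base.Arith.Contracts
import Fermat.Agent.TW.Euler.Base.Mackey0.Apply

/-!
# PROGRAM G (S56), GW-Euler base case, arithmetic nodes: `mackeyInvOut : MackeyInvOut`

The literal contract `MackeyInvOut` of `TW/Euler/Base/Arith/Contracts.lean` (helper17), from the
orbit count (MACKEY-0) of `TW/Euler/Base/Mackey0/*`:

* `orbCount_eq_card_goodOrbits`: `orbCount D Z φ = #goodOrbits (G ⧸ Z) φ` (definitional);
* `h0Loc_baseMod`: `h⁰(G_ℓ, X_φ) = d · orbCount D (locBar N ℓ) φ`;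
* `hInf_baseMod_orbCount`: `hInf X_φ = d · orbCount D (infBar N) φ`;
* `mackeyInvOut : MackeyInvOut`.
-/

set_option autoImplicit false

open CategoryTheory Module ExtCitation

namespace Fermat.Agent.TW.Euler.Base.Mackey0

open Fermat.Agent.CFT Fermat.Agent.S55 Fermat.Agent.TW.Euler

local notation "Qb" => AlgebraicClosure ℚ
local notation "GQ" => (AlgebraicClosure ℚ ≃ₐ[ℚ] AlgebraicClosure ℚ)

/-- `orbCount` is the number of good orbits. -/
theorem orbCount_eq_card_goodOrbits {G : Type} [Group G] (D Z : Subgroup G) {k' : Type} [Field k']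
    (φ : D →* k'ˣ) : orbCount D Z φ = Nat.card ↥(goodOrbits (G ⧸ Z) φ) := rfl

variable {p : ℕ} [Fact p.Prime] (N : Subgroup GQ) [N.Normal] (D : Subgroup (GQ ⧸ N))
  {k' : Type} [Field k'] [Algebra (ZMod p) k'] (φ : D →* k'ˣ)

/-- `h⁰(G_ℓ, X_φ) = [k' : 𝔽_p] · orbCount D (locBar N ℓ) φ`. -/
theorem h0Loc_baseMod [Finite (GQ ⧸ N)] [Finite k'] (ℓ : Nat.Primes) :
    h0Loc ℓ (baseMod (p := p) N D φ) = finrank (ZMod p) k' * orbCount D (locBar N ℓ) φ := by
  have hZ : ((QuotientGroup.mk' N).comp (primeLocalToGlobal ℓ)).range = locBar N ℓ :=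
    MonoidHom.range_comp _ _
  unfold h0Loc
  rw [LinearEquiv.finrank_eq (invResEquiv N D φ (primeLocalToGlobal ℓ)), finrank_invariants,
    orbCount_eq_card_goodOrbits, mul_comm, hZ]

/-- `hInf X_φ = [k' : 𝔽_p] · orbCount D (infBar N) φ`. -/
theorem hInf_baseMod_orbCount [Finite (GQ ⧸ N)] [Finite k'] :
    hInf (baseMod (p := p) N D φ) = finrank (ZMod p) k' * orbCount D (infBar N) φ := by
  have hZ : Subgroup.zpowers (QuotientGroup.mk complexConjugation : GQ ⧸ N) = infBar N :=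
    (MonoidHom.map_zpowers (QuotientGroup.mk' N) complexConjugation).symm
  rw [hInf_baseMod, orbCount_eq_card_goodOrbits, mul_comm, hZ]

/-- **(MACKEY-0)** the literal contract `MackeyInvOut`. -/
theorem mackeyInvOut : MackeyInvOut := by
  intro p _ _ T _ N _ hN D k' _ _ _ φ
  have : N.FiniteIndex := (globalLevel T).finiteIndex hN
  have : Finite (GQ ⧸ N) := Subgroup.finite_quotient_of_finiteIndex
  refine ⟨?_, fun ℓ => h0Loc_baseMod N D φ ℓ, hInf_baseMod_orbCount N D φ⟩
  rw [hG_zero_baseMod N D φ hN]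

end Fermat.Agent.TW.Euler.Base.Mackey0
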